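import Mathlib.LinearAlgebra.Matrix.SpecialLinearGroup
import Mathlib.RingTheory.Localization.Away.Basic
import Mathlib.Data.ZMod.Basic
import Mathlib.Tactic

/-! Elementary matrices in `SL(2, R)` and the ring `ℤ[1/q]` with its reductions. -/

namespace Fermat.Agent.LevelRaising

open scoped MatrixGroups

section Elem

variable {R S : Type*} [CommRing R] [CommRing S]

/-- upper unipotent -/
def upr (s : R) : SL(2, R) := ⟨!![1, s; 0, 1], by simp [Matrix.det_fin_two]⟩

/-- lower unipotent -/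
def lwr (s : R) : SL(2, R) := ⟨!![1, 0; s, 1], by simp [Matrix.det_fin_two]⟩

/-- diagonal -/
def dia (u : Rˣ) : SL(2, R) :=
  ⟨!![(u : R), 0; 0, ((u⁻¹ : Rˣ) : R)], by simp [Matrix.det_fin_two]⟩

/-- the standard rotation -/
def rot : SL(2, R) := ⟨!![0, 1; -1, 0], by simp [Matrix.det_fin_two]⟩

@[simp] theorem upr_apply_00 (s : R) : upr s 0 0 = 1 := rfl
@[simp] theorem upr_apply_01 (s : R) : upr s 0 1 = s := rfl
@[simp] theorem upr_apply_10 (s : R) : upr s 1 0 = 0 := rfl
@[simp] theorem upr_apply_11 (s : R) : upr s 1 1 = 1 := rfl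
@[simp] theorem lwr_apply_00 (s : R) : lwr s 0 0 = 1 := rfl
@[simp] theorem lwr_apply_01 (s : R) : lwr s 0 1 = 0 := rfl
@[simp] theorem lwr_apply_10 (s : R) : lwr s 1 0 = s := rfl
@[simp] theorem lwr_apply_11 (s : R) : lwr s 1 1 = 1 := rfl

@[simp] theorem rot_apply_00 : (rot : SL(2, R)) 0 0 = 0 := rfl
@[simp] theorem rot_apply_01 : (rot : SL(2, R)) 0 1 = 1 := rfl
@[simp] theorem rot_apply_10 : (rot : SL(2, R)) 1 0 = -1 := rfl
@[simp] theorem rot_apply_11 : (rot : SL(2, R)) 1 1 = 0 := rfl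
@[simp] theorem dia_apply_00 (u : Rˣ) : dia u 0 0 = u := rfl
@[simp] theorem dia_apply_01 (u : Rˣ) : dia u 0 1 = 0 := rfl
@[simp] theorem dia_apply_10 (u : Rˣ) : dia u 1 0 = 0 := rfl
@[simp] theorem dia_apply_11 (u : Rˣ) : dia u 1 1 = ((u⁻¹ : Rˣ) : R) := rfl

theorem det_eq (g : SL(2, R)) : g 0 0 * g 1 1 - g 0 1 * g 1 0 = 1 := by
  have h := g.2
  rwa [Matrix.det_fin_two] at h

theorem sl_ext {g h : SL(2, R)} (h00 : g 0 0 = h 0 0) (h01 : g 0 1 = h 0 1)
    (h10 : g 1 0 = h 1 0) (h11 : g 1 1 = h 1 1) : g = h := by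
  apply Subtype.ext
  ext i j
  fin_cases i <;> fin_cases j <;> assumption

theorem mul_apply00 (g h : SL(2, R)) : (g * h) 0 0 = g 0 0 * h 0 0 + g 0 1 * h 1 0 := by
  simp [Matrix.mul_apply, Fin.sum_univ_two]
theorem mul_apply01 (g h : SL(2, R)) : (g * h) 0 1 = g 0 0 * h 0 1 + g 0 1 * h 1 1 := by
  simp [Matrix.mul_apply, Fin.sum_univ_two]
theorem mul_apply10 (g h : SL(2, R)) : (g * h) 1 0 = g 1 0 * h 0 0 + g 1 1 * h 1 0 := by
  simp [Matrix.mul_apply, Fin.sum_univ_two]
theorem mul_apply11 (g h : SL(2, R)) : (g * h) 1 1 = g 1 0 * h 0 1 + g 1 1 * h 1 1 := by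
  simp [Matrix.mul_apply, Fin.sum_univ_two]

theorem upr_add (s t : R) : upr (s + t) = upr s * upr t := by
  apply sl_ext <;> simp [mul_apply00, mul_apply01, mul_apply10, mul_apply11]; ring

theorem lwr_add (s t : R) : lwr (s + t) = lwr s * lwr t := by
  apply sl_ext <;> simp [mul_apply00, mul_apply01, mul_apply10, mul_apply11]

@[simp] theorem upr_zero : upr (0 : R) = 1 := by apply sl_ext <;> simp

@[simp] theorem lwr_zero : lwr (0 : R) = 1 := by apply sl_ext <;> simp

theorem upr_neg (s : R) : upr (-s) = (upr s)⁻¹ :=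
  eq_inv_of_mul_eq_one_left (by rw [← upr_add, neg_add_cancel, upr_zero])

theorem lwr_neg (s : R) : lwr (-s) = (lwr s)⁻¹ :=
  eq_inv_of_mul_eq_one_left (by rw [← lwr_add, neg_add_cancel, lwr_zero])

theorem upr_pow (s : R) (n : ℕ) : upr s ^ n = upr (n * s) := by
  induction n with
  | zero => simp
  | succ n ih => rw [pow_succ, ih, ← upr_add]; push_cast; congr 1; ring

theorem lwr_pow (s : R) (n : ℕ) : lwr s ^ n = lwr (n * s) := by
  induction n with
  | zero => simp
  | succ n ih => rw [pow_succ, ih, ← lwr_add]; push_cast; congr 1; ring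

theorem rot_mul_upr_mul_inv (s : R) : rot * upr s * rot⁻¹ = lwr (-s) := by
  rw [mul_inv_eq_iff_eq_mul]
  apply sl_ext <;> simp [mul_apply00, mul_apply01, mul_apply10, mul_apply11]

/-- A matrix with the same first row differs by a lower unipotent on the left. -/
theorem eq_lwr_mul_of_row_eq {g h : SL(2, R)} (h0 : g 0 0 = h 0 0) (h1 : g 0 1 = h 0 1) :
    g = lwr (g 1 0 * h 1 1 - g 1 1 * h 1 0) * h := by
  have hg := det_eq g
  have hh := det_eq h
  rw [h0, h1] at hg
  apply sl_ext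
  · simp [mul_apply00, h0]
  · simp [mul_apply01, h1]
  · simp [mul_apply10]; linear_combination (h 1 0) * hg - (g 1 0) * hh
  · simp [mul_apply11]; linear_combination (h 1 1) * hg - (g 1 1) * hh

/-- functoriality of `SL(2, ·)` -/
abbrev slMap (f : R →+* S) : SL(2, R) →* SL(2, S) := Matrix.SpecialLinearGroup.map f

theorem slMap_apply (f : R →+* S) (g : SL(2, R)) (i j : Fin 2) :
    slMap f g i j = f (g i j) := rfl

@[simp] theorem slMap_upr (f : R →+* S) (s : R) : slMap f (upr s) = upr (f s) := by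
  apply sl_ext <;> simp [slMap_apply]

@[simp] theorem slMap_lwr (f : R →+* S) (s : R) : slMap f (lwr s) = lwr (f s) := by
  apply sl_ext <;> simp [slMap_apply]

theorem slMap_eq_one_iff (f : R →+* S) (g : SL(2, R)) :
    slMap f g = 1 ↔ f (g 0 0) = 1 ∧ f (g 0 1) = 0 ∧ f (g 1 0) = 0 ∧ f (g 1 1) = 1 := by
  constructor
  · intro h
    have := fun i j => slMap_apply f g i j
    simp only [h] at this
    exact ⟨by simpa using (this 0 0).symm, by simpa using (this 0 1).symm,
      by simpa using (this 1 0).symm, by simpa using (this 1 1).symm⟩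
  · rintro ⟨a, b, c, d⟩
    apply sl_ext <;> simp [slMap_apply, a, b, c, d]

end Elem

section Away

/-- The ring `ℤ[1/q]`. -/
abbrev Zq (q : ℕ) : Type := Localization.Away (q : ℤ)

variable {q : ℕ}

theorem exists_mul_pow_eq_intCast (x : Zq q) : ∃ (k : ℤ) (n : ℕ), x * (q : Zq q) ^ n = k := by
  obtain ⟨n, k, h⟩ := IsLocalization.Away.surj (q : ℤ) x
  exact ⟨k, n, by simpa using h⟩

theorem isUnit_natCast_self : IsUnit (q : Zq q) := by
  simpa using IsLocalization.Away.algebraMap_isUnit (S := Zq q) (q : ℤ)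

/-- `q` as a unit of `ℤ[1/q]` -/
noncomputable def qUnit (q : ℕ) : (Zq q)ˣ := (isUnit_natCast_self (q := q)).unit

@[simp] theorem qUnit_val : ((qUnit q : (Zq q)ˣ) : Zq q) = q := IsUnit.unit_spec _

theorem isUnit_natCast_zmod {n : ℕ} (h : Nat.Coprime q n) :
    IsUnit ((Int.castRingHom (ZMod n)) (q : ℤ)) := by
  simpa using (ZMod.unitOfCoprime q h).isUnit

/-- reduction `ℤ[1/q] → ℤ/n` for `n` prime to `q` -/
noncomputable def red {n : ℕ} (h : Nat.Coprime q n) : Zq q →+* ZMod n :=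
  IsLocalization.Away.lift (q : ℤ) (g := Int.castRingHom (ZMod n)) (isUnit_natCast_zmod h)

variable {n : ℕ} {h : Nat.Coprime q n}

theorem red_eq_zero_iff (x : Zq q) : red h x = 0 ↔ (n : Zq q) ∣ x := by
  constructor
  · intro hx
    obtain ⟨k, m, hk⟩ := exists_mul_pow_eq_intCast x
    have h1 := congrArg (red h) hk
    rw [map_mul, hx, zero_mul, map_intCast] at h1
    obtain ⟨j, rfl⟩ := (ZMod.intCast_zmod_eq_zero_iff_dvd k n).mp h1.symm
    rw [← (isUnit_natCast_self.pow m).dvd_mul_right, hk]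
    exact ⟨(j : Zq q), by push_cast; ring⟩
  · rintro ⟨y, rfl⟩
    simp

theorem exists_int_sub_mem (x : Zq q) (h : Nat.Coprime q n) [NeZero n] :
    ∃ k : ℕ, (n : Zq q) ∣ x - k := by
  refine ⟨(red h x).val, (red_eq_zero_iff (h := h) _).mp ?_⟩
  simp

end Away

end Fermat.Agent.LevelRaising
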