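import Fermat.Agent.LevelRaising.AwaySL2
import Mathlib.GroupTheory.Transfer
import Mathlib.GroupTheory.Sylow
import Mathlib.GroupTheory.Abelianization.Defs
import Mathlib.GroupTheory.SpecificGroups.Cyclic
import Mathlib.LinearAlgebra.Matrix.GeneralLinearGroup.Card
import Mathlib.FieldTheory.IsAlgClosed.AlgebraicClosure
import Mathlib.NumberTheory.Basic

/-! Central extensions by groups of exponent `p` of groups whose `p`-subgroups are cyclic. -/

set_option linter.style.haveILetI false

namespace Fermat.Agent.LevelRaising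

open scoped MatrixGroups Matrix

section Transfer

variable {Q G₀ : Type*} [Group Q] [Group G₀] {p : ℕ} [Fact p.Prime]

open scoped IsMulCommutative in
theorem ker_inf_commutator_eq_bot [Finite G₀] (π : Q →* G₀) (hc : π.ker ≤ Subgroup.center Q)
    (hexp : ∀ z ∈ π.ker, z ^ p = 1)
    (hcyc : ∀ P : Subgroup G₀, IsPGroup p P → IsCyclic P) :
    π.ker ⊓ commutator Q = ⊥ := by
  obtain ⟨P⟩ : Nonempty (Sylow p π.range) := inferInstance
  set S : Subgroup Q := (P : Subgroup π.range).comap π.rangeRestrict with hS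
  have hindex : S.index = (P : Subgroup π.range).index :=
    Subgroup.index_comap_of_surjective _ π.rangeRestrict_surjective
  have hnd : ¬ p ∣ S.index := by rw [hindex]; exact P.not_dvd_index
  haveI : IsCyclic (P : Subgroup π.range) := by
    have := hcyc _ (P.2.map π.range.subtype)
    exact isCyclic_of_surjective
      (Subgroup.equivMapOfInjective (P : Subgroup π.range) π.range.subtype
        π.range.subtype_injective).symm
      (MulEquiv.surjective _)
  haveI : IsMulCommutative S := ⟨⟨fun a b => by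
    let f : S →* (P : Subgroup π.range) :=
      (π.rangeRestrict.comp S.subtype).codRestrict _ fun x => x.2
    refine (MonoidHom.isMulCommutative_of_isCyclic_of_ker_le_center f fun x hx => ?_).is_comm.comm a b
    have hx' : (x : Q) ∈ π.ker := by
      rw [MonoidHom.mem_ker] at hx ⊢
      exact congrArg (fun y : (P : Subgroup π.range) => ((y : π.range) : G₀)) hx
    rw [Subgroup.mem_center_iff]
    intro y
    exact Subtype.ext (Subgroup.mem_center_iff.mp (hc hx') y)⟩⟩
  haveI : S.FiniteIndex := ⟨by rw [hindex]; exact Subgroup.FiniteIndex.index_ne_zero⟩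
  rw [eq_bot_iff]
  rintro z ⟨hz, hzc⟩
  have key : ∀ (k : ℕ) (g₀ : Q), g₀⁻¹ * z ^ k * g₀ ∈ S → g₀⁻¹ * z ^ k * g₀ = z ^ k := by
    intro k g₀ _
    have := Subgroup.mem_center_iff.mp (pow_mem (hc hz) k) g₀
    rw [mul_assoc, ← this, inv_mul_cancel_left]
  have h1 : MonoidHom.transfer (MonoidHom.id S) z = 1 :=
    Abelianization.commutator_subset_ker _ hzc
  rw [MonoidHom.transfer_eq_pow (MonoidHom.id S) z key] at h1
  have h2 : z ^ S.index = 1 := congrArg Subtype.val h1
  have h3 : orderOf z ∣ Nat.gcd p S.index :=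
    Nat.dvd_gcd (orderOf_dvd_of_pow_eq_one (hexp z hz)) (orderOf_dvd_of_pow_eq_one h2)
  rw [(Nat.Prime.coprime_iff_not_dvd Fact.out).mpr hnd, Nat.dvd_one, orderOf_eq_one_iff] at h3
  exact h3

theorem pow_eq_one_of_closure {T : Set Q} (hT : Subgroup.closure T = ⊤) {n : ℕ}
    (h : ∀ t ∈ T, Abelianization.of t ^ n = 1) (x : Q) : Abelianization.of x ^ n = 1 := by
  have hx : x ∈ Subgroup.closure T := hT ▸ Subgroup.mem_top x
  induction hx using Subgroup.closure_induction with
  | mem y hy => exact h y hy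
  | one => simp
  | mul a b _ _ ha hb => rw [map_mul, mul_pow, ha, hb, one_mul]
  | inv a _ ha => rw [map_inv, inv_pow, ha, inv_one]

theorem ker_eq_bot_of_periodic [Finite G₀] (π : Q →* G₀) (hc : π.ker ≤ Subgroup.center Q)
    (hexp : ∀ z ∈ π.ker, z ^ p = 1)
    (hcyc : ∀ P : Subgroup G₀, IsPGroup p P → IsCyclic P)
    {T : Set Q} (hT : Subgroup.closure T = ⊤) {n : ℕ} (hn : p.Coprime n)
    (hper : ∀ t ∈ T, t ^ n = 1) : π.ker = ⊥ := by
  rw [eq_bot_iff]
  intro z hz
  have h := ker_inf_commutator_eq_bot π hc hexp hcyc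
  rw [← h]
  refine ⟨hz, ?_⟩
  have h1 : Abelianization.of z ^ n = 1 :=
    pow_eq_one_of_closure hT (fun t ht => by rw [← map_pow, hper t ht, map_one]) z
  have h2 : Abelianization.of z ^ p = 1 := by rw [← map_pow, hexp z hz, map_one]
  have h3 : orderOf (Abelianization.of z) ∣ Nat.gcd p n :=
    Nat.dvd_gcd (orderOf_dvd_of_pow_eq_one h2) (orderOf_dvd_of_pow_eq_one h1)
  rw [hn, Nat.dvd_one, orderOf_eq_one_iff] at h3
  exact (QuotientGroup.eq_one_iff z).mp h3

end Transfer

section Cyclic

variable {p : ℕ} [Fact p.Prime]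

/-- a `p`-subgroup of `SL(2, F)` is cyclic when `p` is odd and not the characteristic -/
theorem isCyclic_pGroup_SL2_field {F : Type*} [Field F] (hp2 : p ≠ 2) (hchar : (p : F) ≠ 0)
    (P : Subgroup SL(2, F)) [Finite P] (hP : IsPGroup p P) : IsCyclic P := by
  by_cases hnt : Nontrivial P
  swap
  · rw [not_nontrivial_iff_subsingleton] at hnt
    exact inferInstance
  haveI := hnt
  haveI := hP.center_nontrivial
  obtain ⟨⟨z, hzc⟩, hz1⟩ := exists_ne (1 : Subgroup.center P)
  have hz1' : z ≠ 1 := fun h => hz1 (Subtype.ext h)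
  have hcomm : ∀ h : P, (h : SL(2, F)) * (z : SL(2, F)) = (z : SL(2, F)) * h :=
    fun h => congrArg Subtype.val (Subgroup.mem_center_iff.mp hzc h)
  obtain ⟨k, hk⟩ := hP z
  set a := (z : SL(2, F)) 0 0
  set b := (z : SL(2, F)) 0 1
  set c := (z : SL(2, F)) 1 0
  set d := (z : SL(2, F)) 1 1
  have hdet : a * d - b * c = 1 := det_eq _
  have hodd : Odd (p ^ k) := ((Fact.out : p.Prime).odd_of_ne_two hp2).pow
  have htr : (a + d) ^ 2 ≠ 4 := by
    intro ht
    obtain ⟨e, he, hte⟩ : ∃ e : F, e ^ 2 = 1 ∧ a + d = 2 * e := by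
      by_cases h2 : (2 : F) = 0
      · refine ⟨1, one_pow 2, ?_⟩
        rw [show (4 : F) = 0 by linear_combination 2 * h2] at ht
        rw [eq_zero_of_pow_eq_zero ht, h2, zero_mul]
      · refine ⟨(a + d) / 2, ?_, by field_simp⟩
        rw [div_pow, ht, div_eq_one_iff_eq (pow_ne_zero 2 h2)]
        norm_num
    set Z := ((z : SL(2, F)) : Matrix (Fin 2) (Fin 2) F) with hZdef
    have hZ : Z * Z = (2 * e) • Z - 1 := by
      ext i j
      fin_cases i <;> fin_cases j <;>
        simp [hZdef, Matrix.mul_apply, Fin.sum_univ_two] <;> rw [← hte]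
      all_goals first | linear_combination -hdet | ring
    set Y := e • Z - 1 with hY
    have hY2 : Y * Y = 0 := by
      rw [hY, sub_mul, mul_sub, mul_sub, smul_mul_smul_comm, mul_one, one_mul, one_mul, hZ]
      match_scalars <;> first | linear_combination (2 * e) * he | linear_combination -he
    have hpow : ∀ n : ℕ, (1 + Y) ^ n = 1 + (n : F) • Y := by
      intro n
      induction n with
      | zero => simp
      | succ n ih => rw [pow_succ, ih]; simp [add_mul, mul_add, hY2, add_smul]; abel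
    have h1 := hpow (p ^ k)
    have hk' : Z ^ p ^ k = 1 := by
      simpa [hZdef] using congrArg (fun x : P => ((x : SL(2, F)) : Matrix (Fin 2) (Fin 2) F)) hk
    obtain ⟨j, hj⟩ := hodd
    rw [hY, add_sub_cancel, smul_pow, hk', ← hY, hj, pow_succ, pow_mul, he, one_pow, one_mul] at h1
    set m : F := ((2 * j + 1 : ℕ) : F)
    have hm : m ≠ 0 := by
      simp only [m, ← hj, Nat.cast_pow]; exact pow_ne_zero k hchar
    have hYs : Y = ((e - 1) / m) • 1 := by
      refine smul_right_injective _ hm ?_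
      simp only [smul_smul, mul_div_cancel₀ _ hm, sub_smul, one_smul]
      exact eq_sub_of_add_eq' h1.symm
    have he1 : e = 1 := by
      have := congrFun (congrFun hY2 0) 0
      simpa [hYs, hm, sub_eq_zero] using this
    refine hz1' (Subtype.ext (Subtype.ext ?_))
    simpa [hY, he1, sub_eq_zero] using hYs
  set Z := ((z : SL(2, F)) : Matrix (Fin 2) (Fin 2) F) with hZdef
  -- an element commuting with `z` is a combination of `1` and `z`
  have hcent : ∀ h : P, ∃ x y : F,
      ((h : SL(2, F)) : Matrix (Fin 2) (Fin 2) F) = x • 1 + y • Z := by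
    intro h
    have e00 := congrArg (fun g : SL(2, F) => g 0 0) (hcomm h)
    have e01 := congrArg (fun g : SL(2, F) => g 0 1) (hcomm h)
    have e10 := congrArg (fun g : SL(2, F) => g 1 0) (hcomm h)
    simp only [mul_apply00, mul_apply01, mul_apply10] at e00 e01 e10
    by_cases hb : b = 0
    · have had : a - d ≠ 0 := fun h' => htr <| by
        linear_combination (a - d) * h' + 4 * hdet + 4 * c * hb
      refine ⟨((h : SL(2, F)) 1 1 * a - (h : SL(2, F)) 0 0 * d) / (a - d),
        ((h : SL(2, F)) 0 0 - (h : SL(2, F)) 1 1) / (a - d), ?_⟩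
      ext i j
      fin_cases i <;> fin_cases j <;> simp [hZdef, a, b, d] at hb had ⊢ <;> field_simp
      all_goals (first | ring1 | linear_combination e01 | linear_combination -e01 |
          linear_combination e10)
    · refine ⟨(h : SL(2, F)) 0 0 - (h : SL(2, F)) 0 1 / b * a, (h : SL(2, F)) 0 1 / b, ?_⟩
      ext i j
      fin_cases i <;> fin_cases j <;> simp [hZdef, a, b] at hb ⊢ <;> field_simp
      all_goals (first | ring1 | linear_combination e00 | linear_combination -e00 |
          linear_combination e01 | linear_combination -e01)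
  set i := algebraMap F (AlgebraicClosure F)
  obtain ⟨l, hl⟩ := IsAlgClosed.exists_root (Z.map i).charpoly
    (by rw [Matrix.charpoly_degree_eq_dim]; simp)
  obtain ⟨v, hv0, hv⟩ := Matrix.exists_mulVec_eq_zero_iff.mpr
    ((Matrix.eval_charpoly (Z.map i) l).symm.trans hl)
  have hZv : Z.map i *ᵥ v = l • v := by
    rw [Matrix.sub_mulVec, Matrix.scalar_apply, ← Matrix.smul_one_eq_diagonal,
      Matrix.smul_mulVec, Matrix.one_mulVec] at hv
    exact (sub_eq_zero.mp hv).symm
  have heig : ∀ h : P, ∀ x y : F, ((h : SL(2, F)) : Matrix (Fin 2) (Fin 2) F) = x • 1 + y • Z →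
      ((h : SL(2, F)) : Matrix (Fin 2) (Fin 2) F).map i *ᵥ v = (i x + i y * l) • v := by
    intro h x y e
    rw [e, Matrix.map_add _ (map_add i), Matrix.map_smul' _ _ _ (map_mul i),
      Matrix.map_smul' _ _ _ (map_mul i), Matrix.map_one _ (map_zero i) (map_one i),
      Matrix.add_mulVec, Matrix.smul_mulVec, Matrix.smul_mulVec, Matrix.one_mulVec, hZv, smul_smul,
      ← add_smul]
  choose x y hxy using hcent
  let f : P →* AlgebraicClosure F :=
    { toFun := fun h => i (x h) + i (y h) * l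
      map_one' := smul_left_injective _ hv0 <| by
        simpa using (heig 1 _ _ (hxy 1)).symm
      map_mul' := fun g h => smul_left_injective _ hv0 <| by
        simp only
        rw [← heig _ _ _ (hxy (g * h)), Subgroup.coe_mul, Matrix.SpecialLinearGroup.coe_mul,
          Matrix.map_mul, ← Matrix.mulVec_mulVec, heig _ _ _ (hxy h), Matrix.mulVec_smul,
          heig _ _ _ (hxy g), smul_smul, mul_comm] }
  refine isCyclic_of_injective_ringHom f ((injective_iff_map_eq_one f).mpr fun h hh => ?_)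
  change i (x h) + i (y h) * l = 1 at hh
  have hd := congrArg i (det_eq (h : SL(2, F)))
  rw [hxy h] at hd
  simp [hZdef] at hd
  have hl' : (Z.map i).charpoly.eval l = 0 := hl
  have hdet' := congrArg i hdet
  simp [Matrix.charpoly_fin_two, Matrix.trace_fin_two, Matrix.det_fin_two, hZdef] at hl'
  simp [a, b, c, d] at hdet' htr
  set t := i ((z : SL(2, F)) 0 0) + i ((z : SL(2, F)) 1 1)
  have hy : y h = 0 := (map_eq_zero i).mp <| (mul_eq_zero.mp (show i (y h) * (t - 2 * l) = 0 by
    linear_combination hd - (i (x h) + 1 - i (y h) * l + i (y h) * t) * hh - i (y h) ^ 2 * hl'))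
      |>.resolve_right fun ht => htr <| i.injective <| by
        simp only [map_pow, map_add, map_ofNat]
        linear_combination (t - 2 * l) * ht - 4 * hl' + 4 * hdet'
  have hx : x h = 1 := i.injective (by simpa [hy] using hh)
  exact Subtype.ext (Subtype.ext (by simpa [hx, hy] using hxy h))

/-- kernel of `SL(2, ℤ/r^e) → SL(2, ℤ/r)` is an `r`-group -/
theorem pow_eq_one_of_map_eq_one {r e : ℕ} (g : SL(2, ZMod (r ^ (e + 1))))
    (hg : slMap (ZMod.castHom (dvd_pow_self r (Nat.succ_ne_zero e)) (ZMod r)) g = 1) :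
    g ^ r ^ e = 1 := by
  rw [slMap_eq_one_iff] at hg
  have hdvd : ∀ x : ZMod (r ^ (e + 1)),
      ZMod.castHom (dvd_pow_self r (Nat.succ_ne_zero e)) (ZMod r) x = 0 →
      ∃ y, x = (r : ZMod (r ^ (e + 1))) * y := by
    intro x hx
    obtain ⟨k, rfl⟩ := ZMod.intCast_surjective x
    rw [map_intCast, ZMod.intCast_zmod_eq_zero_iff_dvd] at hx
    obtain ⟨j, rfl⟩ := hx
    exact ⟨j, by push_cast; ring⟩
  obtain ⟨x₀, hx₀⟩ := hdvd (g 0 0 - 1) (by rw [map_sub, hg.1, map_one, sub_self])
  obtain ⟨x₁, hx₁⟩ := hdvd (g 0 1) hg.2.1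
  obtain ⟨x₂, hx₂⟩ := hdvd (g 1 0) hg.2.2.1
  obtain ⟨x₃, hx₃⟩ := hdvd (g 1 1 - 1) (by rw [map_sub, hg.2.2.2, map_one, sub_self])
  set X : Matrix (Fin 2) (Fin 2) (ZMod (r ^ (e + 1))) := !![x₀, x₁; x₂, x₃]
  have hgX : (g : Matrix (Fin 2) (Fin 2) (ZMod (r ^ (e + 1)))) = 1 + r • X := by
    ext i j
    fin_cases i <;> fin_cases j <;>
      simp [X, Matrix.add_apply, ← hx₀, ← hx₁, ← hx₂, ← hx₃]
  obtain ⟨P, hP⟩ := dvd_sub_pow_of_dvd_sub (R := Polynomial ℤ) (p := r)
    (a := 1 + r • Polynomial.X) (b := 1) ⟨Polynomial.X, by simp⟩ e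
  have h := congrArg (Polynomial.aeval X) hP
  simp only [map_sub, map_pow, map_add, map_one, map_nsmul, Polynomial.aeval_X, one_pow,
    map_mul, map_natCast] at h
  rw [← Nat.cast_pow] at h
  have hz : ((r ^ (e + 1) : ℕ) : Matrix (Fin 2) (Fin 2) (ZMod (r ^ (e + 1)))) = 0 := by
    rw [← map_natCast (Matrix.scalar (Fin 2)), ZMod.natCast_self, map_zero]
  rw [hz, zero_mul, sub_eq_zero, ← hgX] at h
  exact Subtype.ext (by simpa using h)

theorem isCyclic_pGroup_SL2_zmod {r e : ℕ} (hr : r.Prime) (hpr : p ≠ r) (hp2 : p ≠ 2)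
    (P : Subgroup SL(2, ZMod (r ^ (e + 1)))) (hP : IsPGroup p P) : IsCyclic P := by
  haveI := Fact.mk hr
  haveI : NeZero r := ⟨hr.ne_zero⟩
  set φ := slMap (ZMod.castHom (dvd_pow_self r (Nat.succ_ne_zero e)) (ZMod r))
  have hinj : Function.Injective (φ.comp P.subtype) := by
    rw [injective_iff_map_eq_one]
    intro g hg
    obtain ⟨k, hk⟩ := hP g
    have h1 := pow_eq_one_of_map_eq_one (g : SL(2, ZMod (r ^ (e + 1)))) hg
    have h2 : orderOf g ∣ Nat.gcd (p ^ k) (r ^ e) :=
      Nat.dvd_gcd (orderOf_dvd_of_pow_eq_one hk)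
        (orderOf_dvd_of_pow_eq_one (Subtype.ext (by simpa using h1)))
    have hcop : Nat.Coprime (p ^ k) (r ^ e) :=
      ((Nat.coprime_primes Fact.out hr).mpr hpr).pow _ _
    rw [hcop, Nat.dvd_one, orderOf_eq_one_iff] at h2
    exact h2
  haveI := isCyclic_pGroup_SL2_field hp2 (F := ZMod r)
    (by rw [Ne, ZMod.natCast_eq_zero_iff, Nat.prime_dvd_prime_iff_eq hr Fact.out]; exact Ne.symm hpr)
    (φ.comp P.subtype).range
    (hP.of_surjective _ (φ.comp P.subtype).rangeRestrict_surjective)
  exact isCyclic_of_surjective (MonoidHom.ofInjective hinj).symm (MulEquiv.surjective _)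

theorem isCyclic_pGroup_SL2_self (P : Subgroup SL(2, ZMod p)) (hP : IsPGroup p P) :
    IsCyclic P := by
  obtain ⟨k, hk⟩ := IsPGroup.iff_card.mp hP
  have hp := (Fact.out : p.Prime)
  have hdvd : p ^ k ∣ Nat.card (GL (Fin 2) (ZMod p)) := by
    rw [← hk]
    exact Subgroup.card_dvd_of_injective
      ((Matrix.SpecialLinearGroup.toGL).comp P.subtype)
      (Matrix.SpecialLinearGroup.toGL_injective.comp P.subtype_injective)
  rw [Matrix.card_GL_field, ZMod.card, Fin.prod_univ_two] at hdvd
  simp only [Fin.val_zero, pow_zero, Fin.val_one, pow_one] at hdvd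
  rcases Nat.lt_or_ge k 2 with hk2 | hk2
  · rcases Nat.lt_or_ge k 1 with h | h
    · have : Nat.card P = 1 := by rw [hk]; interval_cases k; simp
      haveI := (Nat.card_eq_one_iff_unique.mp this).1
      exact inferInstance
    · exact isCyclic_of_prime_card (p := p) (by rw [hk, show k = 1 by omega, pow_one])
  · exfalso
    have h2 : p * p ∣ (p ^ 2 - 1) * (p * (p - 1)) := by
      have h := (pow_dvd_pow p hk2).trans hdvd
      rw [pow_two] at h ⊢
      rwa [Nat.mul_sub_one]
    rw [mul_left_comm] at h2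
    have h3 := Nat.dvd_of_mul_dvd_mul_left hp.pos h2
    have hp1 := hp.two_le
    rcases (Nat.Prime.dvd_mul hp).mp h3 with h | h
    · have h4 : p ∣ (p ^ 2 - 1) + 1 := by
        rw [Nat.sub_add_cancel (Nat.one_le_pow _ _ hp.pos)]; exact dvd_pow_self p two_ne_zero
      exact hp.not_dvd_one ((Nat.dvd_add_right h).mp h4)
    · exact absurd (Nat.le_of_dvd (by omega) h) (by omega)

end Cyclic

end Fermat.Agent.LevelRaising
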