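import Fermat.Agent.LevelRaising.Residual
import Fermat.Agent.LevelRaising.Lattice.Kernel
import Fermat.Agent.LevelRaising.Lattice.Minimal
import Fermat.Agent.HeckeDuality.Shimura
import Fermat.Agent.HeckeDuality.EigenConverse
import Fermat.Agent.ConductorLevel.Eigen
import Fermat.Agent.Periods.Injective
import Fermat.Agent.Periods.Conj
import Fermat.Prelude.Def_FreyPackage_LevelRaising

/-!
# Raising the level
-/

set_option autoImplicit false

noncomputable section

namespace Fermat.Agent.LevelRaising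

open CongruenceSubgroup Function Fermat.Agent.Periods ModularFormClass
open ModularCurve ModularCurve.Period
open scoped MatrixGroups BigOperators

section Pair

variable {M : ℕ} [NeZero M]

theorem homT_periodHomPair {r : ℕ} (hr : r.Prime) (hrM : ¬ r ∣ M)
    (g g' : CuspForm (Gamma0 M) 2) :
    homT hr hrM ℂ (periodHomPair M (g, g')) =
      periodHomPair M (CuspForm.heckeTLin 2 hr hrM g, CuspForm.heckeTLin 2 hr hrM g') := by
  rw [Periods.periodHomPair_eq]
  simp only [LinearMap.coprod_apply, LinearMap.comp_apply, LinearMap.add_apply,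
    LinearMap.sub_apply, LinearMap.id_apply, Periods.periodMapLin_apply, map_add, map_sub,
    Periods.periodMap_heckeTLin hr hrM, Periods.charInvolution_homT]

theorem homU_periodHomPair {r : ℕ} (hr : r ≠ 0) (hrM : r ∣ M)
    (g g' : CuspForm (Gamma0 M) 2) :
    homU hr hrM ℂ (periodHomPair M (g, g')) =
      periodHomPair M (CuspForm.heckeULin 2 hrM g, CuspForm.heckeULin 2 hrM g') := by
  rw [Periods.periodHomPair_eq]
  simp only [LinearMap.coprod_apply, LinearMap.comp_apply, LinearMap.add_apply,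
    LinearMap.sub_apply, LinearMap.id_apply, Periods.periodMapLin_apply, map_add, map_sub,
    Periods.periodMap_heckeULin hr hrM, Periods.charInvolution_homU]

theorem exists_periodHomPair {v : Additive (Gamma0 M) →+ ℂ}
    (hv : v ∈ parabolicHoms ℂ (Gamma0 M) ℂ) : ∃ g g', periodHomPair M (g, g') = v := by
  rw [← HeckeDuality.range_periodHomPair M] at hv
  obtain ⟨⟨g, g'⟩, e⟩ := hv
  exact ⟨g, g', e⟩

end Pair

section Kernel

variable {q N : ℕ} [NeZero N] [NeZero (N * q)] (h : RaiseData q N)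

/-- parabolic classes killed by both degeneracy operators -/
def kernelSpace : Submodule ℂ (Additive (Gamma0 (N * q)) →+ ℂ) :=
  parabolicHoms ℂ (Gamma0 (N * q)) ℂ ⊓ LinearMap.ker (h.corSys.op ℂ) ⊓
    LinearMap.ker (h.starSys.op ℂ)

omit [NeZero N] [NeZero (N * q)] in
theorem mem_kernelSpace {v : Additive (Gamma0 (N * q)) →+ ℂ} :
    v ∈ kernelSpace h ↔ v ∈ parabolicHoms ℂ (Gamma0 (N * q)) ℂ ∧ h.corSys.apply v = 0 ∧
      h.starSys.apply v = 0 := by
  simp only [kernelSpace, Submodule.mem_inf, LinearMap.mem_ker, and_assoc]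
  rfl

theorem homT_mem_kernelSpace {r : ℕ} (hr : r.Prime) (hrM : ¬ r ∣ N * q)
    {v : Additive (Gamma0 (N * q)) →+ ℂ} (hv : v ∈ kernelSpace h) :
    homT hr hrM ℂ v ∈ kernelSpace h := by
  obtain ⟨h0, h1, h2⟩ := (mem_kernelSpace h).mp hv
  have hrN : ¬ r ∣ N := fun hd => hrM (hd.mul_right q)
  refine (mem_kernelSpace h).mpr ⟨homT_mem_parabolicHoms hr hrM ℂ h0, ?_, ?_⟩
  · rw [← h.homT_cor (by norm_num) (by simp) hr hrN hrM, h1, map_zero]
  · rw [← h.homT_star (by norm_num) (by simp) hr hrN hrM, h2, map_zero]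

omit [NeZero N] in
theorem homT_comm_kernelSpace {r r' : ℕ} (hr : r.Prime) (hrM : ¬ r ∣ N * q) (hr' : r'.Prime)
    (hrM' : ¬ r' ∣ N * q) {v : Additive (Gamma0 (N * q)) →+ ℂ} (hv : v ∈ kernelSpace h) :
    homT hr hrM ℂ (homT hr' hrM' ℂ v) = homT hr' hrM' ℂ (homT hr hrM ℂ v) := by
  obtain ⟨g, g', rfl⟩ := exists_periodHomPair ((mem_kernelSpace h).mp hv).1
  simp only [homT_periodHomPair]
  have hc := CuspForm.heckeTLin_comm (N := N * q) 2 hr hrM hr' hrM'
  rw [show CuspForm.heckeTLin 2 hr hrM (CuspForm.heckeTLin 2 hr' hrM' g) =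
      CuspForm.heckeTLin 2 hr' hrM' (CuspForm.heckeTLin 2 hr hrM g) from LinearMap.congr_fun hc g,
    show CuspForm.heckeTLin 2 hr hrM (CuspForm.heckeTLin 2 hr' hrM' g') =
      CuspForm.heckeTLin 2 hr' hrM' (CuspForm.heckeTLin 2 hr hrM g') from LinearMap.congr_fun hc g']

omit [NeZero N] in
/-- A system of eigenvalues on the kernel gives a normalised eigenform. -/
theorem exists_eigenform_of_kernel {v : Additive (Gamma0 (N * q)) →+ ℂ} (hv : v ∈ kernelSpace h)
    (hv0 : v ≠ 0) (lam : ℕ → ℂ)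
    (hlam : ∀ (r : ℕ) (hr : r.Prime) (hrM : ¬ r ∣ N * q), homT hr hrM ℂ v = lam r • v) :
    ∃ g : CuspForm (Gamma0 (N * q)) 2, g.IsNormalizedEigenform ∧ qCoeff g q ^ 2 = 1 ∧
      ∀ r, r.Prime → ¬ r ∣ N * q → qCoeff g r = lam r := by
  obtain ⟨hpar, hc, hs⟩ := (mem_kernelSpace h).mp hv
  have hqd : q ∣ N * q := dvd_mul_left q N
  have hUU := h.homU_sq_eq ℂ hc hs
  obtain ⟨g1, g2, rfl⟩ := exists_periodHomPair hpar
  have hinj := periodHomPair_injective (N * q)
  have hT : ∀ (r : ℕ) (hr : r.Prime) (hrM : ¬ r ∣ N * q),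
      CuspForm.heckeTLin 2 hr hrM g1 = lam r • g1 ∧ CuspForm.heckeTLin 2 hr hrM g2 = lam r • g2 := by
    intro r hr hrM
    have e := hlam r hr hrM
    rw [homT_periodHomPair, ← map_smul, Prod.smul_mk] at e
    exact Prod.mk.injEq .. ▸ hinj e
  have hU : CuspForm.heckeULin 2 hqd (CuspForm.heckeULin 2 hqd g1) = g1 ∧
      CuspForm.heckeULin 2 hqd (CuspForm.heckeULin 2 hqd g2) = g2 := by
    rw [homU_periodHomPair, homU_periodHomPair] at hUU
    exact Prod.mk.injEq .. ▸ hinj hUU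
  obtain ⟨g, hg0, hgT, hgU⟩ : ∃ g : CuspForm (Gamma0 (N * q)) 2, g ≠ 0 ∧
      (∀ (r : ℕ) (hr : r.Prime) (hrM : ¬ r ∣ N * q), CuspForm.heckeTLin 2 hr hrM g = lam r • g) ∧
      CuspForm.heckeULin 2 hqd (CuspForm.heckeULin 2 hqd g) = g := by
    by_cases h1 : g1 = 0
    · refine ⟨g2, fun h2 => hv0 ?_, fun r hr hrM => (hT r hr hrM).2, hU.2⟩
      rw [h1, h2, ← Prod.zero_eq_mk, map_zero]
    · exact ⟨g1, h1, fun r hr hrM => (hT r hr hrM).1, hU.1⟩
  have : FiniteDimensional ℂ (CuspForm (Gamma0 (N * q)) 2) :=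
    HeckeDuality.finiteDimensional_of_integralStructure
      (IntegralStructure.hasIntegralStructure (N * q) 2)
  let A := ↥(CuspForm.heckeAlgebra (N * q) 2 (∅ : Set ℕ))
  let ρ : A →+* Module.End ℂ (CuspForm (Gamma0 (N * q)) 2) :=
    (CuspForm.heckeAlgebra (N * q) 2 (∅ : Set ℕ)).val.toRingHom
  have hcomm : ∀ (a b : A) (x : CuspForm (Gamma0 (N * q)) 2), ρ a (ρ b x) = ρ b (ρ a x) :=
    fun a b x => by
      rw [← Module.End.mul_apply, ← map_mul, mul_comm a b, map_mul, Module.End.mul_apply]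
  have hρT : ∀ (r : ℕ) (hr : r.Prime) (hrM : ¬ r ∣ N * q),
      ρ (HeckeDuality.heckeOp (N * q) 2 r hr) = CuspForm.heckeTLin 2 hr hrM := fun r hr hrM => by
    show (HeckeDuality.heckeOp (N * q) 2 r hr).1 = _
    rw [HeckeDuality.heckeOp, dif_neg hrM, CuspForm.heckeAlgebra.coe_T]
  have hρU : ρ (HeckeDuality.heckeOp (N * q) 2 q h.prime) = CuspForm.heckeULin 2 hqd := by
    show (HeckeDuality.heckeOp (N * q) 2 q h.prime).1 = _
    rw [HeckeDuality.heckeOp, dif_pos hqd, CuspForm.heckeAlgebra.coe_U]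
  let E : Submodule ℂ (CuspForm (Gamma0 (N * q)) 2) :=
    { carrier := {x | (∀ (r : ℕ) (hr : r.Prime), ¬ r ∣ N * q →
          ρ (HeckeDuality.heckeOp (N * q) 2 r hr) x = lam r • x) ∧
        ρ (HeckeDuality.heckeOp (N * q) 2 q h.prime)
          (ρ (HeckeDuality.heckeOp (N * q) 2 q h.prime) x) = x}
      zero_mem' := ⟨fun r hr _ => by simp, by simp⟩
      add_mem' := fun {x y} hx hy => ⟨fun r hr hrM => by
          rw [map_add, hx.1 r hr hrM, hy.1 r hr hrM, smul_add],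
        by rw [map_add, map_add, hx.2, hy.2]⟩
      smul_mem' := fun c x hx => ⟨fun r hr hrM => by
          rw [map_smul, hx.1 r hr hrM, smul_comm],
        by rw [map_smul, map_smul, hx.2]⟩ }
  have hgE : g ∈ E := ⟨fun r hr hrM => by rw [hρT r hr hrM]; exact hgT r hr hrM,
    by rw [hρU]; exact hgU⟩
  have hEne : E ≠ ⊥ := fun h0 => hg0 <| by
    rw [h0, Submodule.mem_bot] at hgE
    exact hgE
  have hEinv : ∀ a, ∀ x ∈ E, ρ a x ∈ E := fun a x hx => ⟨fun r hr hrM => by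
      rw [hcomm, hx.1 r hr hrM, map_smul], by
      rw [hcomm _ a, hcomm _ a, hx.2]⟩
  obtain ⟨θ, w, hwE, hw0, hθ⟩ := HeckeDuality.exists_eigenCharacter ρ E hEne hEinv
  obtain ⟨-, hnorm, hcoeff⟩ := HeckeDuality.isNormalizedEigenform_of_eigen hw0
    (fun r => if hr : r.Prime then θ (HeckeDuality.heckeOp (N * q) 2 r hr) else 0)
    (fun r hr => by simp only [dif_pos hr]; exact hθ _)
  refine ⟨_, hnorm, ?_, fun r hr hrM => ?_⟩
  · rw [hcoeff q h.prime, dif_pos h.prime]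
    have e := hwE.2
    rw [hθ, map_smul, hθ, smul_smul, ← sq] at e
    exact smul_left_injective ℂ hw0 (e.trans (one_smul ℂ w).symm)
  · rw [hcoeff r hr, dif_pos hr]
    exact smul_left_injective ℂ hw0 ((hθ _).symm.trans (hwE.1 r hr hrM))

end Kernel

open WeierstrassCurve WeierstrassCurve.Affine WeierstrassCurve.Affine.Point in
/-- Level raising at a prime. -/
theorem exists_newAt_congruentEigenform
    (E : WeierstrassCurve ℚ) [E.IsElliptic] {W : WeierstrassCurve ℤ} (hW : W.IsIntegralModelOf E)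
    {p N q : ℕ} (hp : p.Prime) (hp2 : p ≠ 2) (hN : 0 < N) (hq : q.Prime) (hqN : ¬ q ∣ N)
    (hirr : GaloisRepIsIrreducible (K := AlgebraicClosure ℚ) ℚ E p)
    (f : CuspForm (CongruenceSubgroup.Gamma0 N) 2) (𝔪 : Ideal (integralClosure ℤ ℂ))
    (hf : f.IsNormalizedEigenform) (hmax : 𝔪.IsMaximal) (hpm : (p : integralClosure ℤ ℂ) ∈ 𝔪)
    (hcong : ∀ ℓ : ℕ, ℓ.Prime → W.IsGoodPrimeFor ℓ → ¬ ℓ ∣ N → ℓ ≠ p →
      ∃ a : integralClosure ℤ ℂ, (a : ℂ) = ModularFormClass.qCoeff f ℓ ∧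
        a - ((W.apOfModel ℓ : ℤ) : integralClosure ℤ ℂ) ∈ 𝔪)
    (hLR : ∃ a : integralClosure ℤ ℂ, (a : ℂ) = ModularFormClass.qCoeff f q ∧
      a ^ 2 - ((q : integralClosure ℤ ℂ) + 1) ^ 2 ∈ 𝔪) :
    ∃ g : CuspForm (CongruenceSubgroup.Gamma0 (N * q)) 2,
      g.IsNormalizedEigenform ∧
      (∀ ℓ : ℕ, ℓ.Prime → W.IsGoodPrimeFor ℓ → ¬ ℓ ∣ N * q → ℓ ≠ p →
        ∃ a : integralClosure ℤ ℂ, (a : ℂ) = ModularFormClass.qCoeff g ℓ ∧
          a - ((W.apOfModel ℓ : ℤ) : integralClosure ℤ ℂ) ∈ 𝔪) ∧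
      g.IsNewAt q := by
  classical
  have : NeZero N := ⟨hN.ne'⟩
  have : NeZero (N * q) := ⟨mul_ne_zero hN.ne' hq.ne_zero⟩
  have h : RaiseData q N := ⟨hq, hqN⟩
  -- the valuation ring
  obtain ⟨B, hAB, hmB⟩ := Ideal.image_subset_nonunits_valuationSubring
    (A := (integralClosure ℤ ℂ).toSubring) 𝔪 hmax.ne_top
  let ι : integralClosure ℤ ℂ →+* B :=
    (integralClosure ℤ ℂ).val.toRingHom.codRestrict B.toSubring fun a => hAB a.2
  have hιm : ∀ a, IsLocalRing.residue B (ι a) = 0 ↔ a ∈ 𝔪 := by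
    intro a
    rw [IsLocalRing.residue_eq_zero_iff]
    have hle : 𝔪 ≤ (IsLocalRing.maximalIdeal B).comap ι := fun x hx =>
      ValuationSubring.coe_mem_nonunits_iff.mp (hmB ⟨x, hx, rfl⟩)
    have hne : (IsLocalRing.maximalIdeal B).comap ι ≠ ⊤ :=
      Ideal.comap_ne_top _ (IsLocalRing.maximalIdeal.isMaximal B).ne_top
    rw [hmax.eq_of_le hne hle]
    rfl
  have hpB : (p : B) ∈ IsLocalRing.maximalIdeal B := by
    rw [← IsLocalRing.residue_eq_zero_iff, ← map_natCast ι]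
    exact (hιm _).mpr hpm
  have := charP_residueField hp hpB
  -- the auxiliary prime
  have hM : levelM q N * (N * q) * p ≠ 0 :=
    mul_ne_zero (mul_ne_zero (levelM_ne_zero hN.ne') (mul_ne_zero hN.ne' hq.ne_zero)) hp.ne_zero
  obtain ⟨ℓ, hℓ, hgood, hℓp, hℓM, hℓ1, hℓa⟩ := exists_special_prime hW hp hp2 hirr _ hM
  have a : AuxPrime q N ℓ := ⟨hℓ, fun hd => hℓM ((hd.mul_left _).mul_right _),
    (Int.natCast_dvd_natCast.mpr ((dvd_mul_right _ _).mul_right _)).trans hℓ1,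
    (Int.natCast_dvd_natCast.mpr ((dvd_mul_left _ _).mul_right _)).trans hℓ1⟩
  have hℓ1p : (IsLocalRing.residue B (ℓ : B)) = 1 := by
    have := (CharP.intCast_eq_zero_iff (IsLocalRing.ResidueField B) p _).mpr
      ((Int.natCast_dvd_natCast.mpr (dvd_mul_left p _)).trans hℓ1)
    push_cast at this
    rw [map_natCast]
    exact sub_eq_zero.mp this
  -- the eigenvalues of `f`
  let ev : ℕ → B := fun r =>
    if hr : r.Prime then ι ⟨qCoeff f r, ConductorLevel.isIntegral_qCoeff hf hr⟩ else 0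
  have hev : ∀ (r : ℕ), r.Prime → ((ev r : B) : ℂ) = qCoeff f r := fun r hr => by
    simp only [ev, dif_pos hr]
    rfl
  have hev' : ∀ (r : ℕ), r.Prime → ∀ b : integralClosure ℤ ℂ, (b : ℂ) = qCoeff f r → ev r = ι b :=
    fun r hr b hb => Subtype.ext ((hev r hr).trans hb.symm)
  -- integral periods
  have hf0 : f ≠ 0 := fun h0 => by
    have := hf.qCoeff_one
    rw [h0, show qCoeff ⇑(0 : CuspForm (Gamma0 N) 2) 1 = 0 from _root_.map_zero (HeckeDuality.coeffLin N 2 1)]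
      at this
    exact zero_ne_one this
  have hv0 : periodMapLin N f ≠ 0 := fun h0 =>
    hf0 (periodMapLin_injective (h0.trans (_root_.map_zero _).symm))
  obtain ⟨g0, w, hw1, hs, hvw⟩ := exists_normalized (B := B) (periodMapLin N f) hv0
  set s := periodMapLin N f (Additive.ofMul g0)
  have hinc : inclH B w = s⁻¹ • periodMapLin N f := by
    rw [hvw, smul_smul, inv_mul_cancel₀ hs, one_smul]
  have hwpar : IsParabolicHom (Gamma0 N) w := fun γ hγ => Subtype.ext <| by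
    show inclH B w (Additive.ofMul γ) = (0 : ℂ)
    rw [hinc, AddMonoidHom.smul_apply,
      (mem_parabolicHoms_iff (R := ℂ)).mp (periodMap_mem_parabolicHoms f) γ hγ |>
        fun e => (show periodMapLin N f (Additive.ofMul γ) = 0 from e), smul_zero]
  have hw0 : redH B w ≠ 0 := fun h0 => by
    have := DFunLike.congr_fun h0 (Additive.ofMul g0)
    rw [redH_apply, hw1, map_one] at this
    exact one_ne_zero this
  have heig : ∀ (r : ℕ) (hr : r.Prime) (hrN : ¬ r ∣ N), homT hr hrN B w = ev r • w := by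
    intro r hr hrN
    apply inclH_injective
    rw [inclH_smul, hev r hr, ← homT_inclH, hinc, map_smul]
    rw [show homT hr hrN ℂ (periodMapLin N f) = periodMapLin N (CuspForm.heckeTLin 2 hr hrN f) from
      (periodMap_heckeTLin hr hrN f).symm,
      HeckeDuality.heckeTLin_apply_of_isNormalizedEigenform hf hr hrN, map_smul, smul_comm]
  have hℓev : IsLocalRing.residue B (ev ℓ - (1 + ℓ)) ≠ 0 := by
    obtain ⟨b, hb, hbm⟩ := hcong ℓ hℓ hgood a.not_dvd_left hℓp
    rw [hev' ℓ hℓ b hb]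
    have h1 := (hιm _).mpr hbm
    rw [map_sub, map_sub, map_intCast, map_intCast, sub_eq_zero] at h1
    rw [map_sub, map_add, map_one, hℓ1p, h1, sub_ne_zero]
    intro h2
    refine hℓa ((CharP.intCast_eq_zero_iff (IsLocalRing.ResidueField B) p _).mp ?_)
    rw [Int.cast_sub, h2]
    norm_num
  -- the sign
  obtain ⟨b, hb, hbm⟩ := hLR
  obtain ⟨e, he, hqev⟩ : ∃ e : ℤ, e * e = 1 ∧
      IsLocalRing.residue B (((q : B) + 1) + (e : B) * ev q) = 0 := by
    rw [hev' q hq b hb]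
    have : (b - ((q : integralClosure ℤ ℂ) + 1)) * (b + ((q : integralClosure ℤ ℂ) + 1)) ∈ 𝔪 := by
      convert hbm using 1
      ring
    rcases hmax.isPrime.mem_or_mem this with h1 | h1 <;> have h1' := (hιm _).mpr h1
    · refine ⟨-1, rfl, ?_⟩
      simp only [map_add, map_sub, map_mul, map_natCast, map_one, Int.cast_neg, Int.cast_one,
        map_neg] at h1' ⊢
      linear_combination -h1'
    · refine ⟨1, rfl, ?_⟩
      simp only [map_add, map_mul, map_natCast, map_one, Int.cast_one] at h1' ⊢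
      linear_combination h1'
  obtain ⟨k0, hc, hst, hkpar, hk0, hkeig⟩ :=
    exists_kernel_class h a hp hp2 hpB w hwpar hw0 ev heig hℓev e he hqev
  have hk0W : inclH B k0 ∈ kernelSpace h := by
    refine (mem_kernelSpace h).mpr ⟨fun γ hγ => ?_, ?_, ?_⟩
    · rw [inclH_apply, hkpar γ hγ]
      rfl
    · rw [inclH, AddMonoidHom.compHom_apply_apply, HeckeSystem.apply_comp, hc, AddMonoidHom.comp_zero]
    · rw [inclH, AddMonoidHom.compHom_apply_apply, HeckeSystem.apply_comp, hst,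
        AddMonoidHom.comp_zero]
  obtain ⟨v, hvW, hv0', hvlam⟩ := exists_congruent_eigenvector B (kernelSpace h)
    (fun r hr hrM v hv => homT_mem_kernelSpace h hr hrM hv)
    (fun r hr hrM r' hr' hrM' v hv => homT_comm_kernelSpace h hr hrM hr' hrM' hv)
    k0 hk0W hk0 (fun r => IsLocalRing.residue B (ev r)) hkeig
  choose lam hlam hlamθ using hvlam
  obtain ⟨g, hg, hgq, hgr⟩ := exists_eigenform_of_kernel h hvW hv0'
    (fun r => if hr : r.Prime ∧ ¬ r ∣ N * q then (lam r hr.1 hr.2 : ℂ) else 0)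
    (fun r hr hrM => by simp only [dif_pos (And.intro hr hrM)]; exact hlam r hr hrM)
  refine ⟨g, hg, fun r hr hgoodr hrM hrp => ?_, hgq⟩
  obtain ⟨af, haf, hafm⟩ := hcong r hr hgoodr (fun hd => hrM (hd.mul_right q)) hrp
  let ag : integralClosure ℤ ℂ := ⟨qCoeff g r, ConductorLevel.isIntegral_qCoeff hg hr⟩
  refine ⟨ag, rfl, (hιm _).mp ?_⟩
  have e1 : ι ag = lam r hr hrM := Subtype.ext <| by
    show qCoeff g r = _
    rw [hgr r hr hrM, dif_pos ⟨hr, hrM⟩]
  have e2 := (hιm _).mpr hafm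
  rw [map_sub, map_sub] at e2 ⊢
  rwa [e1, hlamθ r hr hrM, hev' r hr af haf]

end Fermat.Agent.LevelRaising
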