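import Fermat.Agent.EC.Rep.Residual
import Fermat.Agent.Carayol.Omega.ChangeVar

/-!
# Primes `ℓ ≡ 1 (mod M)` with `a_ℓ ≢ 2`
-/

set_option autoImplicit false

noncomputable section

namespace Fermat.Agent.LevelRaising

open scoped WeierstrassCurve.Affine
open WeierstrassCurve WeierstrassCurve.Affine WeierstrassCurve.Affine.Point
open Fermat.Agent.Carayol.Omega (oldX oldY)
open Module

local notation "Q̄" => AlgebraicClosure ℚ
local notation "GQ" => AlgebraicClosure ℚ ≃ₐ[ℚ] AlgebraicClosure ℚ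

section Transfer

/-- points of equal curves -/
def pointCongr {F : Type*} [Field F] [DecidableEq F] {X Y : WeierstrassCurve F} (h : X = Y) :
    X.toAffine.Point ≃+ Y.toAffine.Point := by
  subst h
  exact AddEquiv.refl _

theorem pointCongr_some {F : Type*} [Field F] [DecidableEq F] {X Y : WeierstrassCurve F}
    (h : X = Y) {x y : F} (hx : X.toAffine.Nonsingular x y) :
    pointCongr h (.some _ _ hx) = .some x y (h ▸ hx) := by
  subst h
  rfl

/-- A change of coordinates over `ℚ` identifies the torsion Galois modules. -/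
theorem exists_torsionEquiv_variableChange (E : WeierstrassCurve ℚ) [E.IsElliptic]
    (C : VariableChange ℚ) (p : ℕ) :
    ∃ e : Submodule.torsionBy ℤ ((C • E)⁄Q̄).Point p ≃ₗ[ZMod p] Submodule.torsionBy ℤ (E⁄Q̄).Point p,
      ∀ (σ : GQ) x, e (σ • x) = σ • e x := by
  set φ : ℚ →+* Q̄ := algebraMap ℚ Q̄
  have hXY : (C • E).map φ = C.map φ • E.map φ := (map_variableChange E C φ).symm
  have : (E.map φ).IsElliptic := inferInstance
  let Φ : ((C • E)⁄Q̄).Point ≃+ (E⁄Q̄).Point :=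
    (pointCongr hXY).trans (Carayol.Omega.pointEquiv (C.map φ) (E.map φ))
  have hΦ : ∀ (σ : GQ) (P : ((C • E)⁄Q̄).Point), Φ (σ • P) = σ • Φ P := by
    intro σ P
    cases P with
    | zero =>
      rw [algEquiv_smul_def, algEquiv_smul_def]
      change Φ (Point.map σ.toAlgHom 0) = Point.map σ.toAlgHom (Φ 0)
      rw [_root_.map_zero, _root_.map_zero, _root_.map_zero]
    | some x y h =>
      rw [algEquiv_smul_def, algEquiv_smul_def, Point.map_some]
      show Carayol.Omega.pointEquiv (C.map φ) (E.map φ) (pointCongr hXY (.some _ _ _)) =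
        Point.map σ.toAlgHom (Carayol.Omega.pointEquiv (C.map φ) (E.map φ) (pointCongr hXY (.some _ _ h)))
      rw [pointCongr_some, pointCongr_some, Carayol.Omega.pointEquiv_some, Carayol.Omega.pointEquiv_some]
      refine Eq.trans ?_ (Point.map_some (f := σ.toAlgHom) _).symm
      refine Carayol.Omega.point_some_congr (X := E.map φ) ?_ ?_ _ _ <;> simp [oldX, oldY, φ]
  let e : Submodule.torsionBy ℤ ((C • E)⁄Q̄).Point p ≃+ Submodule.torsionBy ℤ (E⁄Q̄).Point p :=
    { toFun := fun x => ⟨Φ x.1, by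
        rw [Submodule.mem_torsionBy_iff, ← map_zsmul, (Submodule.mem_torsionBy_iff _ _).mp x.2,
          _root_.map_zero]⟩
      invFun := fun x => ⟨Φ.symm x.1, by
        rw [Submodule.mem_torsionBy_iff, ← map_zsmul, (Submodule.mem_torsionBy_iff _ _).mp x.2,
          _root_.map_zero]⟩
      left_inv := fun x => Subtype.ext (Φ.symm_apply_apply x.1)
      right_inv := fun x => Subtype.ext (Φ.apply_symm_apply x.1)
      map_add' := fun x y => Subtype.ext (map_add Φ x.1 y.1) }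
  exact ⟨LinearEquiv.ofBijective (e.toAddMonoidHom.toZModLinearMap p) e.bijective,
    fun σ x => Subtype.ext (hΦ σ x.1)⟩

theorem galoisRepIsIrreducible_of_variableChange (E : WeierstrassCurve ℚ) [E.IsElliptic]
    (C : VariableChange ℚ) (p : ℕ) (hirr : GaloisRepIsIrreducible (K := Q̄) ℚ E p) :
    GaloisRepIsIrreducible (K := Q̄) ℚ (C • E) p := by
  obtain ⟨e, he⟩ := exists_torsionEquiv_variableChange E C p
  let L := e.toLinearMap
  have hL : Function.Bijective L := e.bijective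
  obtain ⟨hnt, hsimple⟩ := hirr
  refine ⟨e.toEquiv.nontrivial, fun N hN => ?_⟩
  have hst : IsGaloisStable ℚ (N.map L) := by
    rintro σ x ⟨z, hz, rfl⟩
    exact ⟨σ • z, hN σ z hz, he σ z⟩
  rcases hsimple (N.map L) hst with h | h
  · left
    exact (Submodule.map_injective_of_injective hL.1) (h.trans (Submodule.map_bot L).symm)
  · right
    refine Submodule.map_injective_of_injective hL.1 (h.trans ?_)
    rw [Submodule.map_top, LinearMap.range_eq_top.mpr hL.2]

theorem modRepIsIrreducible_of_model {E : WeierstrassCurve ℚ} [E.IsElliptic] {W : WeierstrassCurve ℤ}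
    (hW : W.IsIntegralModelOf E) {p : ℕ}
    (hirr : GaloisRepIsIrreducible (K := Q̄) ℚ E p) :
    W.Δ ≠ 0 ∧ W.ModRepIsIrreducible p := by
  obtain ⟨C, hC⟩ := hW
  refine ⟨fun h0 => ?_, ?_⟩
  · have : (W.map (Int.castRingHom ℚ)).IsElliptic := hC ▸ inferInstance
    have h := this.isUnit.ne_zero
    simp [h0] at h
  · show GaloisRepIsIrreducible (K := Q̄) ℚ (W.map (Int.castRingHom ℚ)) p
    rw [← hC]
    exact galoisRepIsIrreducible_of_variableChange E C p hirr

end Transfer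

/-- A good prime `ℓ ≡ 1 (mod M)` with `a_ℓ ≢ 2 (mod p)`. -/
theorem exists_special_prime {E : WeierstrassCurve ℚ} [E.IsElliptic] {W : WeierstrassCurve ℤ}
    (hW : W.IsIntegralModelOf E) {p : ℕ} (hp : p.Prime) (hp2 : p ≠ 2)
    (hirr : GaloisRepIsIrreducible (K := Q̄) ℚ E p) (M : ℕ) (hM : M ≠ 0) :
    ∃ ℓ : ℕ, ℓ.Prime ∧ W.IsGoodPrimeFor ℓ ∧ ℓ ≠ p ∧ ¬ ℓ ∣ M ∧ (M : ℤ) ∣ (ℓ : ℤ) - 1 ∧
      ¬ (p : ℤ) ∣ W.apOfModel ℓ - 2 := by
  classical
  have : Fact p.Prime := ⟨hp⟩
  obtain ⟨hΔ, hirrW⟩ := modRepIsIrreducible_of_model hW hirr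
  set M' := M * p
  have : NeZero M' := ⟨mul_ne_zero hM hp.ne_zero⟩
  have hpM' : p ∣ M' := dvd_mul_left p M
  set ρ := EC.Rep.residualRep W p hΔ
  have hdet : ∀ σ, Arith.cyclotomicHom M' σ = 1 → LinearMap.det (ρ.ρ σ) = 1 := fun σ hσ => by
    rw [EC.Rep.det_residualRep hΔ (IsAlgClosed.card_rootsOfUnity_eq Q̄ p) σ]
    exact congrArg Units.val
      ((Arith.unitsMap_cyclotomicHom hpM' σ).symm.trans (by rw [hσ, map_one]))
  obtain ⟨g, hg1, hg⟩ := EC.Rep.exists_trace_ne_two (ρ := ρ) (EC.Rep.two_ne_zero_zmod hp2)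
    complexConjugation_mul_self
    (EC.Rep.det_residualRep_involution hΔ hp2 complexConjugation_mul_self
      EC.Rep.complexConjugation_ne_one)
    ((EC.Rep.isIrreducible_residualRep_iff hΔ).mpr hirrW) (Arith.cyclotomicHom M') hdet
  obtain ⟨L, hLfin, hL⟩ := ρ.factorsThroughFiniteLevel
  obtain ⟨L', hL'fin, hL'⟩ := Arith.cyclotomicHom_factors M'
  let Φ := ρ.ρ.prod (Arith.cyclotomicHom M')
  have : FiniteDimensional ℚ (L ⊔ L' : IntermediateField ℚ Q̄) :=
    IntermediateField.finiteDimensional_sup _ _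
  obtain ⟨ℓ, hℓ, hℓS, A, hA, σ, hσ, ⟨i, hi⟩, ⟨j, hj⟩⟩ :=
    Arith.Density.exists_frobenius_pow Φ (L ⊔ L') (fun τ hτ => Prod.ext
      (hL τ fun x hx => hτ x ((le_sup_left : L ≤ L ⊔ L') hx))
      (hL' τ fun x hx => hτ x ((le_sup_right : L' ≤ L ⊔ L') hx))) g
      (M'.primeFactors ∪ W.Δ.natAbs.primeFactors)
  simp only [Finset.mem_union, not_or] at hℓS
  have hgood : W.IsGoodPrimeFor ℓ := fun hdvd => hℓS.2
    (Nat.mem_primeFactors.mpr ⟨hℓ, Int.natCast_dvd.mp hdvd, Int.natAbs_ne_zero.mpr hΔ⟩)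
  have hℓM' : ¬ ℓ ∣ M' := fun h => hℓS.1 (Nat.mem_primeFactors.mpr ⟨hℓ, h, NeZero.ne M'⟩)
  have hℓp : ℓ ≠ p := fun h => hℓM' (h ▸ hpM')
  have hχσ : Arith.cyclotomicHom M' σ = 1 := by
    have := congrArg Prod.snd hj
    simpa [Φ, hg1] using this
  have hmod : ((ℓ : ℕ) : ZMod M') = 1 := by
    rw [← Arith.cyclotomicHom_frobenius hA hℓ hσ hℓM', hχσ, Units.val_one]
  have hdiv : (M' : ℤ) ∣ (ℓ : ℤ) - 1 := by
    rw [← ZMod.intCast_zmod_eq_zero_iff_dvd]; push_cast; rw [hmod, sub_self]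
  refine ⟨ℓ, hℓ, hgood, hℓp, fun h => hℓM' (dvd_mul_of_dvd_left h p),
    (Int.natCast_dvd_natCast.mpr (dvd_mul_right M p)).trans hdiv, fun hdvd => hg ?_⟩
  have hℓ1 : ((ℓ : ℕ) : ZMod p) = 1 := by
    rw [← sub_eq_zero]
    have := (ZMod.intCast_zmod_eq_zero_iff_dvd _ p).mpr
      ((Int.natCast_dvd_natCast.mpr hpM').trans hdiv)
    push_cast at this
    exact this
  have ha : (W.apOfModel ℓ : ZMod p) = 1 + 1 := by
    have := (ZMod.intCast_zmod_eq_zero_iff_dvd _ p).mpr hdvd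
    push_cast at this
    linear_combination this
  have hg' : ρ.ρ g = ρ.ρ σ ^ i := by simpa [Φ] using congrArg Prod.fst hi
  rw [hg', EC.Rep.trace_det_pow ρ.finrank_eq _ ?_ i]
  · rw [← hg', hdet g hg1]; norm_num
  · rw [show LinearMap.det (ρ.ρ σ) = 1 from (EC.FrobTrace.det_frobenius W hℓ hgood hℓp hA hσ).trans hℓ1, ← ha]
    exact EC.FrobTrace.galoisTrace_frobenius W hℓ hgood hℓp hA hσ

end Fermat.Agent.LevelRaising
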